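import Mathlib
import Fermat.Prelude.Def_ModularCurve_X0ModL
import Fermat.Agent.MU.S28.Eval
import Fermat.Agent.MU.S28.QExp
import Fermat.Agent.S20.Ramanujan
import Fermat.Agent.MU.S28.FormalUnit
import Fermat.Agent.MU.Lib.IgusaDeg.AlgJd
import Fermat.Agent.Lib.RR.SepLaurent

section MergeWrap_Lib_IgusaDeg_Theta -- from Lib/IgusaDeg/Theta.lean

set_option autoImplicit false

namespace Fermat.Agent.IgusaDeg

open Polynomial ModularCurve Fermat.Agent.S28

noncomputable section

variable {R : Type*} [CommRing R]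

/-- `θ = q d/dq`, coefficientwise. -/
def thetaFun (x : LaurentSeries R) : LaurentSeries R where
  coeff n := (n : R) * x.coeff n
  isPWO_support' := x.isPWO_support.mono fun n hn => by
    rw [HahnSeries.mem_support]
    intro h
    exact hn (by simp only [h, mul_zero])

@[simp] theorem thetaFun_coeff (x : LaurentSeries R) (n : ℤ) :
    (thetaFun x).coeff n = (n : R) * x.coeff n := rfl

theorem thetaFun_support_subset (x : LaurentSeries R) : (thetaFun x).support ⊆ x.support := by
  intro n hn
  rw [HahnSeries.mem_support] at hn ⊢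
  intro h
  exact hn (by rw [thetaFun_coeff, h, mul_zero])

theorem thetaFun_mul (x y : LaurentSeries R) :
    thetaFun (x * y) = x * thetaFun y + y * thetaFun x := by
  ext n
  rw [thetaFun_coeff, HahnSeries.coeff_add, HahnSeries.coeff_mul,
    HahnSeries.coeff_mul_right' y.isPWO_support (thetaFun_support_subset y), mul_comm y,
    HahnSeries.coeff_mul_left' x.isPWO_support (thetaFun_support_subset x),
    Finset.mul_sum, ← Finset.sum_add_distrib]
  refine Finset.sum_congr rfl fun ij hij => ?_
  have h : ij.1 + ij.2 = n := (Finset.mem_antidiagonal.mp hij).2.2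
  simp only [thetaFun_coeff]
  rw [← h]
  push_cast
  ring

variable (R) in
/-- `θ = q d/dq` as an additive map of `R((q))` (it satisfies the Leibniz rule `theta_mul`). -/
def theta : LaurentSeries R →+ LaurentSeries R where
  toFun := thetaFun
  map_zero' := by
    ext n
    simp only [thetaFun_coeff, HahnSeries.coeff_zero, mul_zero]
  map_add' x y := by
    ext n
    simp only [thetaFun_coeff, HahnSeries.coeff_add, mul_add]

@[simp] theorem theta_coeff (x : LaurentSeries R) (n : ℤ) :
    (theta R x).coeff n = (n : R) * x.coeff n := rfl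

theorem theta_mul (x y : LaurentSeries R) :
    theta R (x * y) = x * theta R y + y * theta R x :=
  thetaFun_mul x y

theorem theta_one : theta R (1 : LaurentSeries R) = 0 := by
  ext n
  rw [theta_coeff, HahnSeries.coeff_one]
  split_ifs with h
  · subst h; simp
  · simp

theorem theta_pow (x : LaurentSeries R) (n : ℕ) :
    theta R (x ^ n) = (n : LaurentSeries R) * x ^ (n - 1) * theta R x := by
  induction n with
  | zero => simp [theta_one]
  | succ n ih =>
    rw [pow_succ, theta_mul, ih]
    rcases Nat.eq_zero_or_pos n with rfl | hn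
    · simp
    · have : x ^ n = x ^ (n - 1) * x := by
        rw [← pow_succ, Nat.sub_add_cancel hn]
      rw [Nat.add_sub_cancel]
      push_cast
      rw [this]
      ring

theorem theta_hahnC (c : R) : theta R (HahnSeries.C c) = 0 := by
  ext n
  rw [theta_coeff, HahnSeries.C_apply, HahnSeries.coeff_zero]
  rcases eq_or_ne n 0 with rfl | h
  · simp
  · rw [HahnSeries.coeff_single_of_ne h, mul_zero]

/-- Change of coefficients commutes with `θ`. -/
theorem coeffMap_theta {S : Type*} [CommRing S] (f : R →+* S) (x : LaurentSeries R) :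
    coeffMap f (theta R x) = theta S (coeffMap f x) := by
  ext n
  rw [coeffMap_coeff, theta_coeff, theta_coeff, coeffMap_coeff, map_mul, map_intCast]

/-- `θ (x(q^d)) = d · (θ x)(q^d)`. -/
theorem theta_qExpand (d : ℕ) [NeZero d] (x : LaurentSeries R) :
    theta R (qExpand R d x) = (d : LaurentSeries R) * qExpand R d (theta R x) := by
  have hd : ((d : ℕ) : LaurentSeries R) = HahnSeries.C (d : R) := by
    rw [map_natCast]
  rw [hd]
  ext n
  rw [theta_coeff, HahnSeries.C_apply, HahnSeries.coeff_single_zero_mul]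
  by_cases hn : (d : ℤ) ∣ n
  · obtain ⟨m, rfl⟩ := hn
    rw [qExpand_coeff_mul, qExpand_coeff_mul, theta_coeff]
    push_cast
    ring
  · rw [qExpand_coeff_of_not_dvd _ _ hn, qExpand_coeff_of_not_dvd _ _ hn, mul_zero, mul_zero]

/-! ### The chain rule -/

theorem theta_pev1 (j : LaurentSeries R) (p : R[X]) :
    theta R (pev1 j p) = pev1 j (derivative p) * theta R j := by
  induction p using Polynomial.induction_on' with
  | add p q hp hq =>
    rw [map_add, map_add, hp, hq, derivative_add, map_add]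
    ring
  | monomial n c =>
    rw [derivative_monomial, pev1_apply, pev1_apply, eval₂_monomial, eval₂_monomial, theta_mul,
      theta_hahnC, theta_pow, map_mul, map_natCast]
    ring

/-- The partial derivative with respect to the inner variable. -/
def dY (P : R[X][X]) : R[X][X] := P.sum fun i c => monomial i (derivative c)

theorem dY_add (P Q : R[X][X]) : dY (P + Q) = dY P + dY Q := by
  unfold dY
  rw [sum_add_index]
  · intro i; simp
  · intro i a b; simp

theorem dY_monomial (n : ℕ) (c : R[X]) : dY (monomial n c) = monomial n (derivative c) := by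
  unfold dY
  rw [sum_monomial_index]
  simp

theorem dY_zero : dY (0 : R[X][X]) = 0 := by
  unfold dY
  rw [sum_zero_index]

theorem coeff_dY (P : R[X][X]) (i : ℕ) : (dY P).coeff i = derivative (P.coeff i) := by
  induction P using Polynomial.induction_on' with
  | add p q hp hq => rw [dY_add, coeff_add, coeff_add, hp, hq, derivative_add]
  | monomial n c =>
    rw [dY_monomial, coeff_monomial, coeff_monomial]
    split_ifs <;> simp

theorem natDegree_dY_le (P : R[X][X]) : (dY P).natDegree ≤ P.natDegree := by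
  rw [natDegree_le_iff_coeff_eq_zero]
  intro i hi
  rw [coeff_dY, coeff_eq_zero_of_natDegree_lt hi, derivative_zero]

/-- The chain rule: `θ (P(j, x)) = (∂_Y P)(j, x) θ j + (∂_X P)(j, x) θ x`. -/
theorem theta_pev2 (j x : LaurentSeries R) (P : R[X][X]) :
    theta R (pev2 j x P) =
      pev2 j x (dY P) * theta R j + pev2 j x (derivative P) * theta R x := by
  induction P using Polynomial.induction_on' with
  | add p q hp hq =>
    rw [map_add, map_add, hp, hq, dY_add, derivative_add, map_add, map_add]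
    ring
  | monomial n c =>
    rw [dY_monomial, derivative_monomial, pev2_apply, pev2_apply, pev2_apply, eval₂_monomial,
      eval₂_monomial, eval₂_monomial, theta_mul, theta_pev1, theta_pow, map_mul, map_natCast]
    ring

/-- `θ j ≠ 0` for the `j`-invariant, over every nontrivial ring. -/
theorem theta_jqModC_ne_zero [Nontrivial R] : theta R (jqModC R) ≠ 0 := by
  intro h
  have h1 := congrArg (fun z : LaurentSeries R => z.coeff (-1)) h
  simp only [theta_coeff, HahnSeries.coeff_zero, coeff_jqModC_neg_one] at h1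
  simp at h1

end

end Fermat.Agent.IgusaDeg
end MergeWrap_Lib_IgusaDeg_Theta

section MergeWrap_Lib_IgusaDeg_ThetaQ -- from Lib/IgusaDeg/ThetaQ.lean

set_option autoImplicit false

namespace Fermat.Agent.IgusaDeg

open UpperHalfPlane ModularForm Filter Complex Function
open scoped Real Topology MatrixGroups ModularForm Manifold Derivative
open Fermat.Agent.S28 Fermat.Agent.S28.QExp ModularCurve
open Fermat.Agent.S23 (QA)

noncomputable section

local notation "𝕢" => Function.Periodic.qParam

/-! ### `θ` on power series -/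

/-- `θ = q d/dq` on power series. -/
def psTheta {R : Type*} [CommRing R] (P : PowerSeries R) : PowerSeries R :=
  PowerSeries.mk fun n => (n : R) * P.coeff n

theorem coeff_psTheta {R : Type*} [CommRing R] (P : PowerSeries R) (n : ℕ) :
    (psTheta P).coeff n = (n : R) * P.coeff n := by
  simp [psTheta]

theorem theta_ofPowerSeries {R : Type*} [CommRing R] (P : PowerSeries R) :
    theta R (HahnSeries.ofPowerSeries ℤ R P) = HahnSeries.ofPowerSeries ℤ R (psTheta P) := by
  ext n
  rw [theta_coeff]
  rcases le_or_gt 0 n with hn | hn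
  · lift n to ℕ using hn
    rw [HahnSeries.ofPowerSeries_apply_coeff, HahnSeries.ofPowerSeries_apply_coeff, coeff_psTheta]
    simp
  · rw [ofPowerSeries_coeff_of_neg _ hn, ofPowerSeries_coeff_of_neg _ hn, mul_zero]

theorem theta_single_one {R : Type*} [CommRing R] (m : ℤ) :
    theta R (HahnSeries.single m (1 : R)) = HahnSeries.C (m : R) * HahnSeries.single m 1 := by
  ext n
  rw [theta_coeff, HahnSeries.C_apply, HahnSeries.coeff_single_zero_mul]
  rcases eq_or_ne n m with rfl | h
  · rfl
  · rw [HahnSeries.coeff_single_of_ne h, mul_zero, mul_zero]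

/-- Taylor series of `q ↦ q c'(q)`. -/
theorem taylor0_mul_deriv {c : ℂ → ℂ} (hc : AnalyticAt ℂ c 0) :
    taylor0 (fun q => q * deriv c q) = psTheta (taylor0 c) := by
  have h1 : (fun q : ℂ => q * deriv c q) = (fun q : ℂ => q) * deriv c := rfl
  rw [h1, taylor0_mul (c := fun q : ℂ => q) (c' := deriv c) analyticAt_id hc.deriv, taylor0_id]
  ext n
  rw [coeff_psTheta]
  cases n with
  | zero => simp
  | succ m =>
    rw [PowerSeries.coeff_succ_X_mul, coeff_taylor0, coeff_taylor0, iteratedDeriv_succ',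
      Nat.factorial_succ]
    have h2 : ((m + 1 : ℕ) : ℂ) ≠ 0 := by exact_mod_cast Nat.succ_ne_zero m
    have h3 : ((m.factorial : ℕ) : ℂ) ≠ 0 := by exact_mod_cast Nat.factorial_ne_zero m
    push_cast
    field_simp

/-! ### The normalized derivative of a periodic holomorphic function -/

theorem normDeriv_eq {F : ℍ → ℂ} (hper : IsPer F) (hhol : MDiff F) (z : ℍ) :
    D F z = qFun z * deriv (cuspFunction 1 F) (qFun z) := by
  have h1 : (F ∘ ofComplex) =ᶠ[𝓝 (z : ℂ)] (cuspFunction 1 F) ∘ (𝕢 1) := by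
    filter_upwards [isOpen_upperHalfPlaneSet.mem_nhds z.im_pos] with w hw
    have := eq_cuspFunction (f := F) ⟨w, hw⟩ one_ne_zero hper
    simp only [Function.comp_apply, ofComplex_apply_of_im_pos hw]
    exact this.symm
  have hc : DifferentiableAt ℂ (cuspFunction 1 F) (𝕢 1 (z : ℂ)) :=
    Function.Periodic.differentiableAt_cuspFunction one_ne_zero hper
      (UpperHalfPlane.mdifferentiableAt_iff.mp (hhol z))
  have h2 : HasDerivAt ((cuspFunction 1 F) ∘ (𝕢 1))
      (deriv (cuspFunction 1 F) (𝕢 1 (z : ℂ)) * (2 * Real.pi * Complex.I * 𝕢 1 (z : ℂ))) (z : ℂ) :=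
    hc.hasDerivAt.comp (z : ℂ) (Fermat.Agent.S20.ramanujanAux_hasDerivAt_qParam (z : ℂ))
  rw [Derivative.normalizedDerivOfComplex, h1.deriv_eq, h2.deriv]
  have hpi : (2 * (Real.pi : ℂ) * Complex.I) ≠ 0 := by
    simp [Real.pi_ne_zero]
  show _ = 𝕢 1 (z : ℂ) * deriv (cuspFunction 1 F) (𝕢 1 (z : ℂ))
  field_simp

theorem isPer_normDeriv {F : ℍ → ℂ} (hper : IsPer F) : IsPer (D F) := by
  rw [isPer_iff]
  intro τ
  have h1 : ((((1 : ℝ) +ᵥ τ : ℍ)) : ℂ) = (τ : ℂ) + 1 := by
    rw [coe_vadd]; push_cast; ring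
  have h2 : (fun w : ℂ => (F ∘ ofComplex) (w + 1)) = F ∘ ofComplex := funext fun w => hper w
  show (2 * Real.pi * Complex.I)⁻¹ * deriv (F ∘ ofComplex) (((1 : ℝ) +ᵥ τ : ℍ) : ℂ) =
    (2 * Real.pi * Complex.I)⁻¹ * deriv (F ∘ ofComplex) (τ : ℂ)
  rw [h1, ← deriv_comp_add_const, h2]

theorem mdiff_qFun : MDiff qFun := by
  rw [UpperHalfPlane.mdifferentiable_iff]
  refine (Function.Periodic.differentiable_qParam (h := 1)).differentiableOn.congr ?_
  intro w hw
  simp only [Function.comp_apply, qFun]
  rw [ofComplex_apply_of_im_pos hw]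

theorem normDeriv_qFun : D qFun = qFun := by
  funext z
  have h1 : (qFun ∘ ofComplex) =ᶠ[𝓝 (z : ℂ)] (𝕢 1) := by
    filter_upwards [isOpen_upperHalfPlaneSet.mem_nhds z.im_pos] with w hw
    simp only [Function.comp_apply, qFun, ofComplex_apply_of_im_pos hw]
  rw [Derivative.normalizedDerivOfComplex, h1.deriv_eq,
    (Fermat.Agent.S20.ramanujanAux_hasDerivAt_qParam (z : ℂ)).deriv]
  have hpi : (2 * (Real.pi : ℂ) * Complex.I) ≠ 0 := by
    simp [Real.pi_ne_zero]
  show _ = 𝕢 1 (z : ℂ)
  field_simp

/-- The holomorphic case. -/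
theorem qa_normDeriv {g : ℍ → ℂ} (hper : IsPer g) (hhol : MDiff g) (hqa : QA g) :
    QA (D g) ∧ qExpansion 1 (D g) = psTheta (qExpansion 1 g) := by
  have hc : AnalyticAt ℂ (fun q : ℂ => q * deriv (cuspFunction 1 g) q) 0 :=
    analyticAt_id.mul hqa.deriv
  have h := qa_of_eq (f := D g) one_pos hc fun τ _ => normDeriv_eq hper hhol τ
  refine ⟨h.1, ?_⟩
  rw [h.2, taylor0_mul_deriv hqa, qExpansion_eq_taylor0]

/-- **The `q`-expansion of the normalized derivative**. -/
theorem hasQ_normDeriv {f : ℍ → ℂ} {s : LaurentSeries ℂ} (hf : HasQ f s) (hhol : MDiff f) :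
    HasQ (D f) (theta ℂ s) := by
  obtain ⟨hper, m, hqa, hexp⟩ := hf
  have hqm : MDiff (qFun ^ m) := mdiff_qFun.pow m
  have hg : MDiff (f * qFun ^ m) := hhol.mul hqm
  have hgper : IsPer (f * qFun ^ m) := hper.mul (isPer_qFun.pow m)
  obtain ⟨h1, h2⟩ := qa_normDeriv hgper hg hqa
  -- `D f · q^m = D g - m g`
  have hD : D f * qFun ^ m = D (f * qFun ^ m) - (m : ℂ) • (f * qFun ^ m) := by
    rw [Derivative.normalizedDerivOfComplex_mul f (qFun ^ m) hhol hqm,
      Derivative.normalizedDerivOfComplex_pow qFun m mdiff_qFun, normDeriv_qFun]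
    funext z
    simp only [Pi.add_apply, Pi.mul_apply, Pi.sub_apply, Pi.smul_apply, Pi.pow_apply,
      Pi.natCast_apply, smul_eq_mul]
    rcases Nat.eq_zero_or_pos m with rfl | hm
    · simp
    · have : qFun z ^ m = qFun z ^ (m - 1) * qFun z := by
        rw [← pow_succ, Nat.sub_add_cancel hm]
      rw [this]
      ring
  refine ⟨isPer_normDeriv hper, m, ?_, ?_⟩
  · rw [hD]
    exact h1.sub (hqa.smul _)
  · rw [hD, sub_eq_add_neg, h1.qExpansion_add (hqa.smul _).neg, (hqa.smul _).qExpansion_neg,
      hqa.qExpansion_smul, h2, map_add, map_neg, ← theta_ofPowerSeries, hexp, theta_mul,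
      theta_single_one]
    have h3 : HahnSeries.ofPowerSeries ℤ ℂ ((m : ℂ) • qExpansion 1 (f * qFun ^ m)) =
        HahnSeries.C (m : ℂ) * (HahnSeries.single (m : ℤ) 1 * s) := by
      rw [PowerSeries.smul_eq_C_mul, map_mul, HahnSeries.ofPowerSeries_C, hexp]
    rw [h3]
    push_cast
    ring

end

end Fermat.Agent.IgusaDeg
end MergeWrap_Lib_IgusaDeg_ThetaQ

section MergeWrap_Lib_IgusaDeg_ThetaId -- from Lib/IgusaDeg/ThetaId.lean

set_option autoImplicit false

namespace Fermat.Agent.IgusaDeg

open UpperHalfPlane ModularForm Filter Complex Function EisensteinSeries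
open scoped Real Topology MatrixGroups ModularForm Manifold Derivative
open Fermat.Agent.S28 Fermat.Agent.S28.QExp ModularCurve

noncomputable section

/-! ### The analytic identity -/

theorem mdiff_discriminant : MDiff ModularForm.discriminant :=
  CuspFormClass.holo CuspForm.discriminant

theorem mdiff_E4 : MDiff (⇑E₄ : ℍ → ℂ) := ModularFormClass.holo E₄

theorem mdiff_jFun : MDiff jFun := by
  have h1 := mdiff_discriminant
  have h2 := mdiff_E4
  rw [UpperHalfPlane.mdifferentiable_iff] at h1 h2 ⊢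
  have h3 : DifferentiableOn ℂ
      (fun w => ((⇑E₄ : ℍ → ℂ) ∘ ofComplex) w ^ 3 / (ModularForm.discriminant ∘ ofComplex) w)
      upperHalfPlaneSet :=
    (h2.pow 3).div h1 fun w _ => discriminant_ne_zero _
  exact h3.congr fun w _ => rfl

theorem jFun_mul_discriminant :
    jFun * ModularForm.discriminant = (⇑E₄ : ℍ → ℂ) ^ 3 := by
  funext τ
  simp only [Pi.mul_apply, Pi.pow_apply, jFun]
  exact div_mul_cancel₀ _ (discriminant_ne_zero τ)

theorem normDeriv_jFun_mul (τ : ℍ) :
    D jFun τ * ModularForm.discriminant τ = -(E₄ τ ^ 2 * E₆ τ) := by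
  have h1 := congrArg (fun F : ℍ → ℂ => D F τ) jFun_mul_discriminant
  beta_reduce at h1
  rw [Derivative.normalizedDerivOfComplex_mul _ _ mdiff_jFun mdiff_discriminant,
    Derivative.normalizedDerivOfComplex_pow _ 3 mdiff_E4,
    Fermat.Agent.S20.ramanujan_discriminant, Fermat.Agent.S20.ramanujan_E₄] at h1
  simp only [Pi.add_apply, Pi.mul_apply, Pi.pow_apply, Pi.smul_apply, Pi.sub_apply,
    smul_eq_mul, Pi.natCast_apply] at h1
  have h2 : jFun τ * ModularForm.discriminant τ = E₄ τ ^ 3 := by
    have := congrFun jFun_mul_discriminant τ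
    simpa using this
  have h3 : D jFun τ * ModularForm.discriminant τ =
      ((3 : ℕ) : ℂ) * E₄ τ ^ (3 - 1) * ((3 : ℂ)⁻¹ * (E2 τ * E₄ τ - E₆ τ)) -
        jFun τ * (E2 τ * ModularForm.discriminant τ) := by
    rw [← h1]; ring
  rw [h3]
  have h4 : jFun τ * (E2 τ * ModularForm.discriminant τ) = E2 τ * E₄ τ ^ 3 := by
    rw [← h2]; ring
  rw [h4]
  push_cast
  ring

theorem normDeriv_jFun_pow_six (τ : ℍ) :
    D jFun τ ^ 6 = ModularForm.discriminant τ * jFun τ ^ 4 * (jFun τ - 1728) ^ 3 := by
  have hd := discriminant_ne_zero τ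
  have h1 := normDeriv_jFun_mul τ
  have h2 := discriminant_eq_E₄_cube_sub_E₆_sq τ
  have hx : D jFun τ = -(E₄ τ ^ 2 * E₆ τ) / ModularForm.discriminant τ := by
    rw [eq_div_iff hd, h1]
  have hj : jFun τ - 1728 = E₆ τ ^ 2 / ModularForm.discriminant τ := by
    rw [eq_div_iff hd, sub_mul]
    have : jFun τ * ModularForm.discriminant τ = E₄ τ ^ 3 := by
      have := congrFun jFun_mul_discriminant τ
      simpa using this
    rw [this]
    have h3 : (1728 : ℂ) * ModularForm.discriminant τ = E₄ τ ^ 3 - E₆ τ ^ 2 := by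
      rw [h2]; field_simp
    rw [h3]; ring
  rw [hx, hj]
  have hj' : jFun τ = E₄ τ ^ 3 / ModularForm.discriminant τ := rfl
  rw [hj']
  field_simp

/-! ### The formal identity over `ℂ` -/

theorem hasQ_normDeriv_jFun : HasQ (D jFun) (theta ℂ (jqModC ℂ)) :=
  hasQ_normDeriv hasQ_jFun mdiff_jFun

theorem theta_identity_C :
    theta ℂ (jqModC ℂ) ^ 6 =
      deltaC * jqModC ℂ ^ 4 * (jqModC ℂ - HahnSeries.C (1728 : ℂ)) ^ 3 := by
  have hL := hasQ_normDeriv_jFun.pow 6
  have hR := (hasQ_discriminant.mul (hasQ_jFun.pow 4)).mul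
    ((hasQ_jFun.sub (hasQ_const 1728)).pow 3)
  refine hL.eq_of_eq hR fun τ => ?_
  simp only [Pi.mul_apply, Pi.pow_apply, Pi.sub_apply]
  exact normDeriv_jFun_pow_six τ

/-! ### The formal identity over `ℤ` and over every ring -/

theorem deltaC_eq : deltaC = wp10_DeltaF ℂ := rfl

theorem theta_identity_Z :
    theta ℤ (jqModC ℤ) ^ 6 =
      wp10_DeltaF ℤ * jqModC ℤ ^ 4 * (jqModC ℤ - HahnSeries.C (1728 : ℤ)) ^ 3 := by
  apply coeffMap_injective (RingHom.injective_int (Int.castRingHom ℂ))
  rw [map_pow, coeffMap_theta, coeffMap_jqModC, map_mul, map_mul, map_pow, map_pow, map_sub,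
    coeffMap_jqModC, wp10_coeffMap_DeltaF, coeffMap_hahnC, theta_identity_C, deltaC_eq]
  simp

/-- **`(θ j)^6 = Δ j^4 (j - 1728)^3`** over every commutative ring. -/
theorem theta_identity (R : Type*) [CommRing R] :
    theta R (jqModC R) ^ 6 =
      wp10_DeltaF R * jqModC R ^ 4 * (jqModC R - HahnSeries.C (1728 : R)) ^ 3 := by
  have h := congrArg (coeffMap (Int.castRingHom R)) theta_identity_Z
  rw [map_pow, coeffMap_theta, coeffMap_jqModC, map_mul, map_mul, map_pow, map_pow, map_sub,
    coeffMap_jqModC, wp10_coeffMap_DeltaF, coeffMap_hahnC] at h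
  simpa using h

end

end Fermat.Agent.IgusaDeg
end MergeWrap_Lib_IgusaDeg_ThetaId

section MergeWrap_Lib_IgusaDeg_UMem -- from Lib/IgusaDeg/UMem.lean

set_option autoImplicit false

namespace Fermat.Agent.IgusaDeg

open Polynomial ModularCurve Fermat.Agent.S28 IntermediateField

noncomputable section

variable (k : Type*) [Field k]

/-! ### Preliminaries -/

theorem order_jq : (jqModC k).order = -1 := by
  have h1 : (jqModC k).coeff (-1 : ℤ) ≠ 0 := by
    rw [coeff_jqModC_neg_one]
    exact one_ne_zero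
  have hle : (jqModC k).order ≤ -1 := HahnSeries.order_le_of_coeff_ne_zero h1
  refine le_antisymm hle ?_
  by_contra hlt
  push Not at hlt
  have hne : jqModC k ≠ 0 := jqModC_ne_zero_of_nontrivial k
  exact hne (HahnSeries.coeff_order_eq_zero.mp (coeff_jqModC_of_lt k hlt))

theorem pow_ne_jq {ℓ : ℕ} (hℓ : 2 ≤ ℓ) (y : LaurentSeries k) : y ^ ℓ ≠ jqModC k := by
  intro h
  have h1 := congrArg HahnSeries.order h
  rw [HahnSeries.order_pow, order_jq, nsmul_eq_mul] at h1
  have h2 : (ℓ : ℤ) ∣ -1 := ⟨_, h1.symm⟩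
  have h3 : (ℓ : ℤ) ∣ 1 := (dvd_neg.mp h2)
  have h4 := Int.le_of_dvd one_pos h3
  omega

instance infinite_laurent : Infinite (LaurentSeries k) :=
  Infinite.of_injective (fun n : ℕ => (HahnSeries.single (n : ℤ) (1 : k) : LaurentSeries k))
    fun a b h => by
      have h1 := congrArg (fun z : LaurentSeries k => z.coeff (a : ℤ)) h
      simp only [HahnSeries.coeff_single_same] at h1
      by_contra hab
      rw [HahnSeries.coeff_single_of_ne (by exact_mod_cast hab)] at h1
      exact one_ne_zero h1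

theorem natCast_laurent_ne_zero {n : ℕ} (hn : (n : k) ≠ 0) : ((n : ℕ) : LaurentSeries k) ≠ 0 := by
  have h : ((n : ℕ) : LaurentSeries k) = HahnSeries.C (n : k) := by rw [map_natCast]
  rw [h]
  intro h0
  rw [HahnSeries.C_apply] at h0
  have := congrArg (fun z : LaurentSeries k => z.coeff 0) h0
  simp only [HahnSeries.coeff_single_same, HahnSeries.coeff_zero] at this
  exact hn this

theorem qExpand_jq_sub_C_ne_zero (d : ℕ) [NeZero d] (c : k) :
    qExpand k d (jqModC k) - HahnSeries.C c ≠ 0 := by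
  intro h
  have h1 : qExpand k d (jqModC k) = qExpand k d (HahnSeries.C c) := by
    rw [qExpand_C]; exact sub_eq_zero.mp h
  have h2 := qExpand_injective (R := k) d h1
  have h3 := congrArg (fun z : LaurentSeries k => z.coeff (-1)) h2
  simp only [coeff_jqModC_neg_one, HahnSeries.C_apply] at h3
  rw [HahnSeries.coeff_single_of_ne (by decide)] at h3
  exact one_ne_zero h3

theorem qExpand_jq_ne_zero (d : ℕ) [NeZero d] : qExpand k d (jqModC k) ≠ 0 := by
  have := qExpand_jq_sub_C_ne_zero k d 0
  rwa [map_zero, sub_zero] at this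

theorem jq_sub_C_ne_zero (c : k) : jqModC k - HahnSeries.C c ≠ 0 := by
  have := qExpand_jq_sub_C_ne_zero k 1 c
  rwa [qExpand_one_apply] at this

/-! ### Membership of polynomial expressions -/

variable {k} in
theorem evJ_mem_of_mem (F : IntermediateField k (LaurentSeries k)) {j : LaurentSeries k}
    (hj : j ∈ F) (c : k[X]) : evJ j c ∈ F := by
  induction c using Polynomial.induction_on' with
  | add p q hp hq => rw [map_add]; exact add_mem hp hq
  | monomial n a =>
    show aeval j (monomial n a) ∈ F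
    rw [aeval_monomial]
    exact mul_mem (F.algebraMap_mem a) (pow_mem hj n)

variable {k} in
theorem pev2_mem_of_mem (F : IntermediateField k (LaurentSeries k)) {j x : LaurentSeries k}
    (hj : j ∈ F) (hx : x ∈ F) (Q : k[X][X]) : pev2 j x Q ∈ F := by
  induction Q using Polynomial.induction_on' with
  | add p q hp hq => rw [map_add]; exact add_mem hp hq
  | monomial n a =>
    rw [pev2_apply, eval₂_monomial, pev1_eq_evJ]
    exact mul_mem (evJ_mem_of_mem F hj a) (pow_mem hx n)

variable {k} in
theorem hahnC_mem (F : IntermediateField k (LaurentSeries k)) (c : k) :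
    (HahnSeries.C c : LaurentSeries k) ∈ F := by
  rw [hahnC_eq_algebraMap]
  exact F.algebraMap_mem c

/-! ### A separable relation between `j` and `j(q^d)` -/

theorem isSeparable_jd [PerfectField k] (d : ℕ) [NeZero d] :
    IsSeparable ↥(IntermediateField.adjoin k ({jqModC k} : Set (LaurentSeries k)))
      (qExpand k d (jqModC k)) := by
  have halg := isAlgebraic_jd k d
  obtain ⟨p, hp⟩ := CharP.exists k
  rcases CharP.char_is_prime_or_zero k p with hp' | hp0
  · have : Fact p.Prime := ⟨hp'⟩
    exact Fermat.Agent.RRSep.isSeparable_of_isAlgebraic_adjoin p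
      (fun y => pow_ne_jq k hp'.two_le y) halg
  · subst hp0
    have : CharZero k := CharP.charP_to_charZero k
    have : CharZero ↥(IntermediateField.adjoin k ({jqModC k} : Set (LaurentSeries k))) :=
      charZero_of_injective_algebraMap
        (algebraMap k ↥(IntermediateField.adjoin k ({jqModC k} : Set (LaurentSeries k)))).injective
    exact (minpoly.irreducible halg.isIntegral).separable

/-- There is a relation `P(j, j_d) = 0` with `∂_X P (j, j_d) ≠ 0`. -/
theorem exists_sep_relation [PerfectField k] (d : ℕ) [NeZero d] :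
    ∃ P : k[X][X], pev2 (jqModC k) (qExpand k d (jqModC k)) P = 0 ∧
      pev2 (jqModC k) (qExpand k d (jqModC k)) (derivative P) ≠ 0 := by
  set j := jqModC k with hj
  set x := qExpand k d (jqModC k) with hx
  have hsep := isSeparable_jd k d
  obtain ⟨b, P, hb, -, -, hev⟩ := exists_biv_of_poly j
    (minpoly ↥(IntermediateField.adjoin k ({j} : Set (LaurentSeries k))) x)
  have hpoly : P.map (evJ j) = C (evJ j b) *
      (minpoly ↥(IntermediateField.adjoin k ({j} : Set (LaurentSeries k))) x).map
        (algebraMap ↥(IntermediateField.adjoin k ({j} : Set (LaurentSeries k)))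
          (LaurentSeries k)) := by
    refine Polynomial.funext fun y => ?_
    rw [eval_map, hev y, eval_mul, eval_C, eval_map, aeval_def]
  refine ⟨P, ?_, ?_⟩
  · rw [pev2_eq_eval₂_evJ, hev, minpoly.aeval, mul_zero]
  · rw [pev2_eq_eval₂_evJ, ← eval_map, ← derivative_map, hpoly, derivative_C_mul, eval_mul,
      eval_C, derivative_map, eval_map, ← aeval_def]
    refine mul_ne_zero ?_ ?_
    · intro h0
      exact hb (evJ_injective j (ordV_jqModC k) (h0.trans (map_zero _).symm))
    · exact hsep.aeval_derivative_ne_zero (minpoly.aeval _ x)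

/-! ### `Δ(q^δ)/Δ ∈ k(j, j_δ)` -/

theorem delta_ratio_mem [PerfectField k] (N : ℕ) [NeZero N] (hN : (N : k) ≠ 0)
    (δ : ℕ) [NeZero δ] (hδ : δ ∣ N) :
    qExpand k δ (wp10_DeltaF k) / wp10_DeltaF k ∈ modularFunctionFieldFullC k N := by
  set F := modularFunctionFieldFullC k N with hF
  set j := jqModC k with hj
  set x := qExpand k δ (jqModC k) with hx
  set Δ := wp10_DeltaF k with hΔdef
  set T := theta k j with hT
  have hjF : j ∈ F := jqModC_mem_full k N
  have hxF : x ∈ F := jqModCd_mem_full k N hδ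
  obtain ⟨P, hP, hP'⟩ := exists_sep_relation k δ
  set A := pev2 j x (dY P) with hA
  set B := pev2 j x (derivative P) with hB
  have hAF : A ∈ F := pev2_mem_of_mem F hjF hxF _
  have hBF : B ∈ F := pev2_mem_of_mem F hjF hxF _
  -- the chain rule
  have h1 : A * T + B * theta k x = 0 := by
    rw [← theta_pev2, hP, map_zero]
  have h2 : theta k x = (δ : LaurentSeries k) * qExpand k δ T := theta_qExpand δ j
  -- the two identities
  have I1 : T ^ 6 = Δ * j ^ 4 * (j - HahnSeries.C (1728 : k)) ^ 3 := theta_identity k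
  have I2 : qExpand k δ T ^ 6 = qExpand k δ Δ * x ^ 4 * (x - HahnSeries.C (1728 : k)) ^ 3 := by
    have := congrArg (qExpand k δ) I1
    rwa [map_pow, map_mul, map_mul, map_pow, map_pow, map_sub, qExpand_C] at this
  -- nonvanishing
  have hδk : (δ : k) ≠ 0 := by
    obtain ⟨e, he⟩ := hδ
    intro h0
    apply hN
    rw [he, Nat.cast_mul, h0, zero_mul]
  have hδL : ((δ : ℕ) : LaurentSeries k) ≠ 0 := natCast_laurent_ne_zero k hδk
  have hx0 : x ≠ 0 := qExpand_jq_ne_zero k δ
  have hx1 : x - HahnSeries.C (1728 : k) ≠ 0 := qExpand_jq_sub_C_ne_zero k δ _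
  have hΔ0 : Δ ≠ 0 := (wp10_isMonicUnit_DeltaF (R := k)).ne_zero
  -- the key relation
  have h3 : B * ((δ : LaurentSeries k) * qExpand k δ T) = -(A * T) := by
    rw [← h2]; linear_combination h1
  have h4 : B ^ 6 * (δ : LaurentSeries k) ^ 6 * qExpand k δ T ^ 6 = A ^ 6 * T ^ 6 := by
    have := congrArg (fun z => z ^ 6) h3
    beta_reduce at this
    rw [mul_pow, mul_pow, (by decide : Even 6).neg_pow, mul_pow] at this
    linear_combination this
  rw [I1, I2] at h4
  have hden : B ^ 6 * (δ : LaurentSeries k) ^ 6 * (x ^ 4 * (x - HahnSeries.C (1728 : k)) ^ 3) ≠ 0 :=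
    mul_ne_zero (mul_ne_zero (pow_ne_zero _ hP') (pow_ne_zero _ hδL))
      (mul_ne_zero (pow_ne_zero _ hx0) (pow_ne_zero _ hx1))
  have heq : qExpand k δ Δ / Δ =
      (A ^ 6 * (j ^ 4 * (j - HahnSeries.C (1728 : k)) ^ 3)) /
        (B ^ 6 * (δ : LaurentSeries k) ^ 6 * (x ^ 4 * (x - HahnSeries.C (1728 : k)) ^ 3)) := by
    rw [div_eq_div_iff hΔ0 hden]
    linear_combination h4
  rw [heq]
  have hcF : (HahnSeries.C (1728 : k) : LaurentSeries k) ∈ F := hahnC_mem F _
  have hδF : ((δ : ℕ) : LaurentSeries k) ∈ F := IntermediateField.natCast_mem F δ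
  exact div_mem (mul_mem (pow_mem hAF 6) (mul_mem (pow_mem hjF 4) (pow_mem (sub_mem hjF hcF) 3)))
    (mul_mem (mul_mem (pow_mem hBF 6) (pow_mem hδF 6))
      (mul_mem (pow_mem hxF 4) (pow_mem (sub_mem hxF hcF) 3)))

/-! ### The unit -/

theorem prod_zpow_const {ι : Type*} (s : Finset ι) (m : ι → ℤ) {L : Type*} [Field L] (a : L)
    (ha : a ≠ 0) : ∏ i ∈ s, a ^ m i = a ^ ∑ i ∈ s, m i := by
  classical
  induction s using Finset.induction_on with
  | empty => simp
  | insert i s hi ih => rw [Finset.prod_insert hi, Finset.sum_insert hi, ih, zpow_add₀ ha]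

/-- **The canonical unit lies in `k(j(q^d) : d ∣ N)`.** -/
theorem formalUK_mem_full [PerfectField k] (N : ℕ) [NeZero N] (hN : (N : k) ≠ 0) :
    wp10_formalUK k N ∈ modularFunctionFieldFullC k N := by
  have hN0 : N ≠ 0 := NeZero.ne N
  have hΔ0 : wp10_DeltaF k ≠ 0 := (wp10_isMonicUnit_DeltaF (R := k)).ne_zero
  have heq : wp10_formalUK k N =
      ∏ δ ∈ unitSet N, (wp10_qExp k δ (wp10_DeltaF k) / wp10_DeltaF k) ^ unitM N δ := by
    unfold wp10_formalUK
    simp only [div_zpow]
    rw [Finset.prod_div_distrib, prod_zpow_const _ _ _ hΔ0, sum_unitM N hN0, zpow_neg,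
      div_eq_mul_inv]
  rw [heq]
  refine prod_mem fun δ hδ => zpow_mem ?_ _
  have : NeZero δ := ⟨wp3b_ne_zero_of_mem_unitSet hN0 hδ⟩
  rw [wp10_qExp_apply]
  exact delta_ratio_mem k N hN δ (wp3b_dvd_of_mem_unitSet hδ)

end

end Fermat.Agent.IgusaDeg
end MergeWrap_Lib_IgusaDeg_UMem
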